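import Fermat.Prelude.Def_WeierstrassCurve_Mlc1RowStatement
import Fermat.Prelude.Def_FLTPrelim_Ramification

/-!
# Reduction of S60 (semistable curves are modular) to S50, S51, S52, S59 and a level bridge

`Fermat.Agent.S60Reduction.isModular_of_inputs` : the statements S51 (mod 3 or mod 5 is
irreducible), S52 (the 3-5 switch), S50 (Langlands-Tunnell, form (iii)) and S59 (modularity
lifting at `p = 3, 5`), passed as hypotheses in their exact shape, together with one bridge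
hypothesis `LevelBridgeAtThree` (a residual level divisible by `9` with no inertia-fixed
3-torsion can be replaced by a residual level not divisible by `9`), give the modularity of
every semistable integral Weierstrass curve.
-/

set_option autoImplicit false
open WeierstrassCurve WeierstrassCurve.Affine WeierstrassCurve.Affine.Point
open scoped WeierstrassCurve.Affine

namespace Fermat.Agent.S60Reduction

/-- The shape of S51. -/
def Inp51 : Prop :=
  ∀ W : WeierstrassCurve ℤ, W.Δ ≠ 0 → W.IsSemistableModel →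
    W.ModRepIsIrreducible 3 ∨ W.ModRepIsIrreducible 5

/-- The shape of S52. -/
def Inp52 : Prop :=
  ∀ W : WeierstrassCurve ℤ, W.Δ ≠ 0 → W.IsSemistableModel → W.ModRepIsIrreducible 5 →
    ∃ W' : WeierstrassCurve ℤ, W'.Δ ≠ 0 ∧ W'.IsSemistableModel ∧ W'.ModRepIsIrreducible 3 ∧
      ∀ ℓ : ℕ, ℓ.Prime → W.IsGoodPrimeFor ℓ → W'.IsGoodPrimeFor ℓ → ℓ ≠ 5 →
        (5 : ℤ) ∣ (W'.apOfModel ℓ - W.apOfModel ℓ)

/-- No nonzero `3`-torsion point is fixed by an inertia group at `3`. -/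
def NoInertiaFixedThreeTorsion (W : WeierstrassCurve ℤ) : Prop :=
  ∀ A : ValuationSubring (AlgebraicClosure ℚ), A.LiesOverPrime 3 →
    ∀ x : Submodule.torsionBy ℤ
        ((W.map (Int.castRingHom ℚ))⁄(AlgebraicClosure ℚ)).Point (3 : ℕ),
      (∀ σ ∈ A.inertiaSubgroupIn ℚ, σ • x = x) → x = 0

/-- The shape of S50. -/
def Inp50 : Prop :=
  ∀ W : WeierstrassCurve ℤ, W.Δ ≠ 0 → W.IsSemistableModel → W.ModRepIsIrreducible 3 →
    ∃ M : ℕ, 0 < M ∧ W.IsResiduallyModularOfLevel 3 M ∧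
      (∀ q : ℕ, q.Prime → q ≠ 3 → ¬ q ^ 3 ∣ M) ∧
      (3 ^ 2 ∣ M → NoInertiaFixedThreeTorsion W)

/-- The shape of S59. -/
def Inp59 : Prop :=
  ∀ p : ℕ, p = 3 ∨ p = 5 →
    ∀ W : WeierstrassCurve ℤ, W.Δ ≠ 0 → W.IsSemistableModel → W.ModRepIsIrreducible p →
      ∀ (M₀ : ℕ) [NeZero M₀], W.IsResiduallyModularOfLevel p M₀ → ¬ p ^ 2 ∣ M₀ →
        (∀ q : ℕ, q.Prime → q ≠ p → ¬ q ^ 3 ∣ M₀) →
        Mlc1IsModularModelOfExactConductorLevel W

/-- The bridge: a residual level at `3` divisible by `9` (cube-free away from `3`), for a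
semistable curve with irreducible mod-3 representation and no inertia-fixed 3-torsion, can be
replaced by a residual level not divisible by `9` (still cube-free away from `3`). -/
def LevelBridgeAtThree : Prop :=
  ∀ W : WeierstrassCurve ℤ, W.Δ ≠ 0 → W.IsSemistableModel → W.ModRepIsIrreducible 3 →
    ∀ M : ℕ, 0 < M → W.IsResiduallyModularOfLevel 3 M →
      (∀ q : ℕ, q.Prime → q ≠ 3 → ¬ q ^ 3 ∣ M) → 3 ^ 2 ∣ M →
      NoInertiaFixedThreeTorsion W →
      ∃ M₀ : ℕ, 0 < M₀ ∧ W.IsResiduallyModularOfLevel 3 M₀ ∧ ¬ 3 ^ 2 ∣ M₀ ∧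
        (∀ q : ℕ, q.Prime → q ≠ 3 → ¬ q ^ 3 ∣ M₀)

/-- A model that is modular of exact conductor level makes its generic fibre modular. -/
theorem isModular_of_exactConductorLevel {W : WeierstrassCurve ℤ}
    (h : Mlc1IsModularModelOfExactConductorLevel W) :
    (W.map (Int.castRingHom ℚ)).IsModular := by
  obtain ⟨N, hN, -, -, hmod⟩ := h
  exact ⟨W, ⟨1, one_smul _ _⟩, N, hN, hmod⟩

/-- The case of an irreducible mod-3 representation. -/
theorem exactConductorLevel_of_irreducible_three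
    (h50 : Inp50) (h59 : Inp59) (hB : LevelBridgeAtThree)
    (W : WeierstrassCurve ℤ) (hΔ : W.Δ ≠ 0) (hW : W.IsSemistableModel)
    (h3 : W.ModRepIsIrreducible 3) :
    Mlc1IsModularModelOfExactConductorLevel W := by
  obtain ⟨M, hM, hres, hcube, hnine⟩ := h50 W hΔ hW h3
  by_cases h9 : 3 ^ 2 ∣ M
  · obtain ⟨M₀, hM₀, hres₀, h9₀, hcube₀⟩ := hB W hΔ hW h3 M hM hres hcube h9 (hnine h9)
    haveI : NeZero M₀ := ⟨hM₀.ne'⟩
    exact h59 3 (Or.inl rfl) W hΔ hW h3 M₀ hres₀ h9₀ hcube₀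
  · haveI : NeZero M := ⟨hM.ne'⟩
    exact h59 3 (Or.inl rfl) W hΔ hW h3 M hres h9 hcube

/-- A squarefree number is not divisible by the square of a prime. -/
theorem not_sq_dvd_of_squarefree {N q : ℕ} (hN : Squarefree N) (hq : q.Prime) :
    ¬ q ^ 2 ∣ N := by
  intro h
  have h1 : q * q ∣ N := by simpa [sq] using h
  exact hq.one_lt.ne' (Nat.isUnit_iff.mp (hN q h1))

/-- A squarefree number is not divisible by the cube of a prime. -/
theorem not_cube_dvd_of_squarefree {N q : ℕ} (hN : Squarefree N) (hq : q.Prime) :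
    ¬ q ^ 3 ∣ N := fun h =>
  not_sq_dvd_of_squarefree hN hq (dvd_trans (pow_dvd_pow q (by norm_num)) h)

/-- Transfer of modularity through a congruence mod `5`: if `W'` is modular of exact conductor
level and the `a_ℓ` of `W` and `W'` agree mod `5` at the common good primes `ℓ ≠ 5`, then `W`
is residually modular at `5` of the (squarefree) conductor level of `W'`. -/
theorem isResiduallyModularOfLevel_five_of_congruent
    {W W' : WeierstrassCurve ℤ} {N : ℕ}
    (hiff : ∀ q : ℕ, q.Prime → (q ∣ N ↔ (q : ℤ) ∣ W'.Δ))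
    (hmod : W'.IsModularModelOfLevel N)
    (hcong : ∀ ℓ : ℕ, ℓ.Prime → W.IsGoodPrimeFor ℓ → W'.IsGoodPrimeFor ℓ → ℓ ≠ 5 →
      (5 : ℤ) ∣ (W'.apOfModel ℓ - W.apOfModel ℓ)) :
    W.IsResiduallyModularOfLevel 5 N := by
  obtain ⟨f, hf, hfW'⟩ := hmod
  obtain ⟨𝔪, h𝔪, h5⟩ := FLTPrelim.exists_maximalIdeal_natCast_prime_mem Nat.prime_five
  refine ⟨f, 𝔪, hf, h𝔪, h5, fun ℓ hℓ hgood hℓN hℓ5 => ?_⟩
  have hgood' : W'.IsGoodPrimeFor ℓ := fun hdvd => hℓN ((hiff ℓ hℓ).mpr hdvd)
  refine ⟨((W'.apOfModel ℓ : ℤ) : integralClosure ℤ ℂ), ?_, ?_⟩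
  · rw [hfW' ℓ hℓ hgood' hℓN]
    push_cast
    rfl
  · obtain ⟨k, hk⟩ := hcong ℓ hℓ hgood hgood' hℓ5
    have h : ((W'.apOfModel ℓ : ℤ) : integralClosure ℤ ℂ)
        - ((W.apOfModel ℓ : ℤ) : integralClosure ℤ ℂ)
        = ((5 : ℕ) : integralClosure ℤ ℂ) * ((k : ℤ) : integralClosure ℤ ℂ) := by
      rw [← Int.cast_sub, hk]
      push_cast
      rfl
    rw [h]
    exact Ideal.mul_mem_right _ _ h5

/-- The case of an irreducible mod-5 representation. -/
theorem exactConductorLevel_of_irreducible_five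
    (h50 : Inp50) (h52 : Inp52) (h59 : Inp59) (hB : LevelBridgeAtThree)
    (W : WeierstrassCurve ℤ) (hΔ : W.Δ ≠ 0) (hW : W.IsSemistableModel)
    (h5 : W.ModRepIsIrreducible 5) :
    Mlc1IsModularModelOfExactConductorLevel W := by
  obtain ⟨W', hΔ', hW', h3', hcong⟩ := h52 W hΔ hW h5
  obtain ⟨N, hN, hsq, hiff, hmod⟩ :=
    exactConductorLevel_of_irreducible_three h50 h59 hB W' hΔ' hW' h3'
  haveI : NeZero N := ⟨hN.ne'⟩
  exact h59 5 (Or.inr rfl) W hΔ hW h5 N
    (isResiduallyModularOfLevel_five_of_congruent hiff hmod hcong)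
    (not_sq_dvd_of_squarefree hsq Nat.prime_five)
    (fun q hq _ => not_cube_dvd_of_squarefree hsq hq)

/-- Every semistable integral Weierstrass curve with nonzero discriminant is modular of exact
conductor level, from the inputs. -/
theorem exactConductorLevel_of_inputs
    (h50 : Inp50) (h51 : Inp51) (h52 : Inp52) (h59 : Inp59) (hB : LevelBridgeAtThree)
    (W : WeierstrassCurve ℤ) (hΔ : W.Δ ≠ 0) (hW : W.IsSemistableModel) :
    Mlc1IsModularModelOfExactConductorLevel W := by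
  rcases h51 W hΔ hW with h3 | h5
  · exact exactConductorLevel_of_irreducible_three h50 h59 hB W hΔ hW h3
  · exact exactConductorLevel_of_irreducible_five h50 h52 h59 hB W hΔ hW h5

/-- S60 from the inputs. -/
theorem isModular_of_inputs
    (h50 : Inp50) (h51 : Inp51) (h52 : Inp52) (h59 : Inp59) (hB : LevelBridgeAtThree)
    (W : WeierstrassCurve ℤ) (hΔ : W.Δ ≠ 0) (hW : W.IsSemistableModel) :
    (W.map (Int.castRingHom ℚ)).IsModular :=
  isModular_of_exactConductorLevel (exactConductorLevel_of_inputs h50 h51 h52 h59 hB W hΔ hW)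

end Fermat.Agent.S60Reduction
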